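import Fermat.Agent.ES.Inj
import Fermat.Prelude.Def_ModularCurve_GenusNumerics

set_option autoImplicit false

open CongruenceSubgroup
open ModularCurve ModularCurve.Period

noncomputable section

namespace FAES

/-- **ES5**: Eichler--Shimura from the dimension count. -/
theorem eichlerShimura_of_finrank_le (N : ℕ) [NeZero N]
    (hfin : Module.Finite ℂ (parabolicHoms ℂ (Gamma0 N) ℂ))
    (hdim : Module.finrank ℂ (parabolicHoms ℂ (Gamma0 N) ℂ) ≤
      2 * Module.finrank ℂ (CuspForm (Gamma0 N) 2)) :
    Function.Injective (periodHomPair N) ∧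
      LinearMap.range (periodHomPair N) = parabolicHoms ℂ (Gamma0 N) ℂ := by
  have hinj := periodHomPair_injective N
  refine ⟨hinj, ?_⟩
  have hle := range_periodHomPair_le N
  -- finite dimensionality of the source
  let L : (CuspForm (Gamma0 N) 2 × CuspForm (Gamma0 N) 2) →ₗ[ℂ] parabolicHoms ℂ (Gamma0 N) ℂ :=
    (periodHomPair N).codRestrict _ fun p => hle ⟨p, rfl⟩
  have hL : Function.Injective L := fun p q h => hinj (congrArg Subtype.val h)
  have : Module.Finite ℂ (CuspForm (Gamma0 N) 2 × CuspForm (Gamma0 N) 2) :=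
    Module.Finite.of_injective L hL
  have : Module.Finite ℂ (CuspForm (Gamma0 N) 2) :=
    Module.Finite.of_injective (LinearMap.inl ℂ (CuspForm (Gamma0 N) 2) (CuspForm (Gamma0 N) 2))
      LinearMap.inl_injective
  refine Submodule.eq_of_le_of_finrank_le hle ?_
  rw [LinearMap.finrank_range_of_inj hinj, Module.finrank_prod]
  omega

/-- The version with the genus formula. -/
theorem eichlerShimura_of_genus (N : ℕ) [NeZero N]
    (hfin : Module.Finite ℂ (parabolicHoms ℂ (Gamma0 N) ℂ))
    (hdim : (Module.finrank ℂ (parabolicHoms ℂ (Gamma0 N) ℂ) : ℚ) ≤ 2 * genusFormula N)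
    (hS20 : (Module.finrank ℂ (CuspForm (Gamma0 N) 2) : ℚ) = genusFormula N) :
    Function.Injective (periodHomPair N) ∧
      LinearMap.range (periodHomPair N) = parabolicHoms ℂ (Gamma0 N) ℂ := by
  refine eichlerShimura_of_finrank_le N hfin ?_
  rw [← hS20] at hdim
  exact_mod_cast hdim

/-- By-product: the upper bound `dim S₂ ≤ g` follows from the cohomology bound. -/
theorem finrank_cuspForm_le (N : ℕ) [NeZero N]
    (hfin : Module.Finite ℂ (parabolicHoms ℂ (Gamma0 N) ℂ)) :
    2 * Module.finrank ℂ (CuspForm (Gamma0 N) 2) ≤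
      Module.finrank ℂ (parabolicHoms ℂ (Gamma0 N) ℂ) := by
  have hinj := periodHomPair_injective N
  have hle := range_periodHomPair_le N
  let L : (CuspForm (Gamma0 N) 2 × CuspForm (Gamma0 N) 2) →ₗ[ℂ] parabolicHoms ℂ (Gamma0 N) ℂ :=
    (periodHomPair N).codRestrict _ fun p => hle ⟨p, rfl⟩
  have hL : Function.Injective L := fun p q h => hinj (congrArg Subtype.val h)
  have : Module.Finite ℂ (CuspForm (Gamma0 N) 2 × CuspForm (Gamma0 N) 2) :=
    Module.Finite.of_injective L hL
  have : Module.Finite ℂ (CuspForm (Gamma0 N) 2) :=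
    Module.Finite.of_injective (LinearMap.inl ℂ (CuspForm (Gamma0 N) 2) (CuspForm (Gamma0 N) 2))
      LinearMap.inl_injective
  have := LinearMap.finrank_le_finrank_of_injective hL
  rw [Module.finrank_prod] at this
  omega

end FAES
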