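import Mathlib
import Fermat.Agent.Genus.EigenPerm

/-!
# Linear algebra of permutation modules, for the bound on parabolic cohomology
-/

open Module

namespace FAES

section Abstract

variable {G : Type} [Group G] {X : Type} [MulAction G X]

/-- pull-back of functions along the action of `g` -/
noncomputable def pb (g : G) : Module.End ℂ (X → ℂ) := LinearMap.funLeft ℂ ℂ (fun x => g • x)

@[simp] lemma pb_apply (g : G) (v : X → ℂ) (x : X) : pb g v x = v (g • x) := rfl

lemma pb_mul (g h : G) : (pb (g * h) : Module.End ℂ (X → ℂ)) = pb h * pb g := by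
  refine LinearMap.ext fun v => funext fun x => ?_
  simp [mul_smul]

lemma pb_one : (pb (1 : G) : Module.End ℂ (X → ℂ)) = 1 := by
  refine LinearMap.ext fun v => funext fun x => ?_
  simp

lemma pb_pow (g : G) (n : ℕ) : (pb (g ^ n) : Module.End ℂ (X → ℂ)) = pb g ^ n := by
  induction n with
  | zero => simp [pb_one]
  | succ n ih => rw [pow_succ', pb_mul, ih, pow_succ]

lemma pb_eq_one_of_trivial {g : G} (h : ∀ x : X, g • x = x) :
    (pb g : Module.End ℂ (X → ℂ)) = 1 := by
  refine LinearMap.ext fun v => funext fun x => ?_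
  simp [h]

/-- the geometric sum `1 + g + ... + g^(n-1)` acting on functions -/
noncomputable def gs (g : G) (n : ℕ) : Module.End ℂ (X → ℂ) :=
  ∑ i ∈ Finset.range n, pb g ^ i

lemma gs_mul_sub {g : G} {n : ℕ} (h : ∀ x : X, g ^ n • x = x) :
    (gs g n : Module.End ℂ (X → ℂ)) * (pb g - 1) = 0 := by
  rw [gs, geom_sum_mul, ← pb_pow, pb_eq_one_of_trivial h, sub_self]

lemma gs_apply_pb {g : G} {n : ℕ} (h : ∀ x : X, g ^ n • x = x) (v : X → ℂ) :
    gs g n (pb g v) = gs g n v := by
  have := congrArg (fun f : Module.End ℂ (X → ℂ) => f v) (gs_mul_sub h)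
  simpa [sub_eq_zero] using this

lemma pb_gs {g : G} {n : ℕ} (h : ∀ x : X, g ^ n • x = x) :
    (pb g : Module.End ℂ (X → ℂ)) * gs g n = gs g n := by
  have h1 : (pb g - 1 : Module.End ℂ (X → ℂ)) * gs g n = 0 := by
    rw [gs, mul_geom_sum, ← pb_pow, pb_eq_one_of_trivial h, sub_self]
  rwa [sub_mul, one_mul, sub_eq_zero] at h1

lemma pb_pow_gs {g : G} {n : ℕ} (h : ∀ x : X, g ^ n • x = x) (i : ℕ) :
    (pb g : Module.End ℂ (X → ℂ)) ^ i * gs g n = gs g n := by
  induction i with
  | zero => simp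
  | succ i ih => rw [pow_succ, mul_assoc, pb_gs h, ih]

lemma gs_mul_gs {g : G} {n : ℕ} (h : ∀ x : X, g ^ n • x = x) :
    (gs g n : Module.End ℂ (X → ℂ)) * gs g n = (n : ℂ) • gs g n := by
  have h1 : (gs g n : Module.End ℂ (X → ℂ)) * gs g n
      = ∑ i ∈ Finset.range n, pb g ^ i * gs g n := by
    rw [← Finset.sum_mul]; rfl
  rw [h1, Finset.sum_congr rfl fun i _ => pb_pow_gs h i]
  simp [Nat.cast_smul_eq_nsmul]

end Abstract

section Fin

variable {G : Type} [Group G] {X : Type} [MulAction G X] [Fintype X]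

lemma trace_pb (g : G) :
    LinearMap.trace ℂ (X → ℂ) (pb g) = (Nat.card (MulAction.fixedBy X g) : ℂ) := by
  classical
  rw [LinearMap.trace_eq_matrix_trace ℂ (Pi.basisFun ℂ X) (pb g)]
  simp only [Matrix.trace, Matrix.diag, LinearMap.toMatrix_apply, Pi.basisFun_apply,
    Pi.basisFun_repr, pb_apply, Pi.single_apply]
  rw [Finset.sum_boole]
  congr 1
  rw [Nat.card_eq_fintype_card, Fintype.card_subtype]
  rfl

omit [Fintype X] in
lemma isProj_gs {g : G} {n : ℕ} (hn : 0 < n) (h : ∀ x : X, g ^ n • x = x) :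
    LinearMap.IsProj (LinearMap.ker (gs g n : Module.End ℂ (X → ℂ)))
      (1 - (n : ℂ)⁻¹ • gs g n : Module.End ℂ (X → ℂ)) := by
  have hn' : (n : ℂ) ≠ 0 := by exact_mod_cast hn.ne'
  constructor
  · intro v
    rw [LinearMap.mem_ker]
    have := congrArg (fun f : Module.End ℂ (X → ℂ) => f v) (gs_mul_gs h)
    simp only [Module.End.mul_apply, LinearMap.smul_apply] at this
    simp only [LinearMap.sub_apply, Module.End.one_apply, LinearMap.smul_apply, map_sub, map_smul,
      this, smul_smul, inv_mul_cancel₀ hn', one_smul, sub_self]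
  · intro v hv
    rw [LinearMap.mem_ker] at hv
    simp [hv]

lemma finrank_ker_gs {g : G} {n : ℕ} (hn : 0 < n) (h : ∀ x : X, g ^ n • x = x) :
    (n : ℂ) * finrank ℂ (LinearMap.ker (gs g n : Module.End ℂ (X → ℂ))) =
      n * Fintype.card X - ∑ i ∈ Finset.range n, (Nat.card (MulAction.fixedBy X (g ^ i)) : ℂ) := by
  have hn' : (n : ℂ) ≠ 0 := by exact_mod_cast hn.ne'
  have h1 := (isProj_gs hn h).trace
  have h2 : LinearMap.trace ℂ (X → ℂ) (gs g n) =
      ∑ i ∈ Finset.range n, (Nat.card (MulAction.fixedBy X (g ^ i)) : ℂ) := by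
    rw [gs, map_sum]
    simp only [← pb_pow, trace_pb]
  rw [map_sub, LinearMap.trace_one, map_smul, h2, Module.finrank_fintype_fun_eq_card] at h1
  rw [← h1, smul_eq_mul]
  field_simp

lemma finrank_ker_gs_two {g : G} (h : ∀ x : X, g ^ 2 • x = x) :
    2 * finrank ℂ (LinearMap.ker (gs g 2 : Module.End ℂ (X → ℂ)))
      + Nat.card (MulAction.fixedBy X g) = Fintype.card X := by
  have h1 := finrank_ker_gs (n := 2) (by norm_num) h
  have h0 : Nat.card (MulAction.fixedBy X (1 : G)) = Fintype.card X := by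
    rw [MulAction.fixedBy_one_eq_univ, Nat.card_coe_set_eq, Set.ncard_univ, Nat.card_eq_fintype_card]
  rw [Finset.sum_range_succ, Finset.sum_range_one, pow_zero, pow_one, h0] at h1
  have h2 : ((2 * finrank ℂ (LinearMap.ker (gs g 2 : Module.End ℂ (X → ℂ)))
      + Nat.card (MulAction.fixedBy X g) : ℕ) : ℂ) = (Fintype.card X : ℕ) := by
    push_cast
    linear_combination h1
  exact_mod_cast h2

lemma finrank_ker_gs_three {g : G} (h : ∀ x : X, g ^ 3 • x = x) :
    3 * finrank ℂ (LinearMap.ker (gs g 3 : Module.End ℂ (X → ℂ)))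
      + 2 * Nat.card (MulAction.fixedBy X g) = 2 * Fintype.card X := by
  have h1 := finrank_ker_gs (n := 3) (by norm_num) h
  have h0 : Nat.card (MulAction.fixedBy X (1 : G)) = Fintype.card X := by
    rw [MulAction.fixedBy_one_eq_univ, Nat.card_coe_set_eq, Set.ncard_univ, Nat.card_eq_fintype_card]
  have h3 : MulAction.fixedBy X (g ^ 2) = MulAction.fixedBy X g := by
    ext x
    simp only [MulAction.mem_fixedBy]
    constructor
    · intro hx
      have := h x
      rw [pow_succ', mul_smul, hx] at this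
      exact this
    · intro hx
      rw [pow_two, mul_smul, hx, hx]
  rw [Finset.sum_range_succ, Finset.sum_range_succ, Finset.sum_range_one, pow_zero, pow_one, h0,
    h3] at h1
  have h2 : ((3 * finrank ℂ (LinearMap.ker (gs g 3 : Module.End ℂ (X → ℂ)))
      + 2 * Nat.card (MulAction.fixedBy X g) : ℕ) : ℂ) = (2 * Fintype.card X : ℕ) := by
    push_cast
    linear_combination h1
  exact_mod_cast h2

omit [Fintype X] in
lemma card_orbits_toPerm (g : G) :
    Nat.card (MulAction.orbitRel.Quotient (Subgroup.zpowers (MulAction.toPerm g : Equiv.Perm X)) X)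
      = Nat.card (MulAction.orbitRel.Quotient (Subgroup.zpowers g) X) := by
  refine Nat.card_congr (Quotient.congrRight fun x y => ?_)
  have hz : ∀ (k : ℤ) (z : X), ((MulAction.toPerm g : Equiv.Perm X) ^ k) z = g ^ k • z := by
    intro k z
    have : (MulAction.toPerm g : Equiv.Perm X) ^ k = MulAction.toPerm (g ^ k) :=
      (map_zpow (MulAction.toPermHom G X) g k).symm
    rw [this]; rfl
  simp only [MulAction.orbitRel_apply, MulAction.mem_orbit_iff]
  constructor
  · rintro ⟨⟨_, k, rfl⟩, hk⟩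
    refine ⟨⟨g ^ k, k, rfl⟩, ?_⟩
    rw [← hk]
    exact (hz k y).symm
  · rintro ⟨⟨_, k, rfl⟩, hk⟩
    refine ⟨⟨(MulAction.toPerm g : Equiv.Perm X) ^ k, k, rfl⟩, ?_⟩
    rw [← hk]
    exact hz k y

lemma finrank_ker_gs_add_card_orbits_le (g : G) {n : ℕ} (hn : 0 < n) :
    finrank ℂ (LinearMap.ker (gs g n : Module.End ℂ (X → ℂ)))
      + Nat.card (MulAction.orbitRel.Quotient (Subgroup.zpowers g) X) ≤ Fintype.card X := by
  classical
  have hn' : (n : ℂ) ≠ 0 := by exact_mod_cast hn.ne'
  have h1 := FAGenus.finrank_eigenspace_one (MulAction.toPerm g : Equiv.Perm X)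
  rw [card_orbits_toPerm] at h1
  have h2 : Module.End.eigenspace
      (LinearMap.funLeft ℂ ℂ (MulAction.toPerm g : Equiv.Perm X) : Module.End ℂ (X → ℂ)) 1
      ≤ LinearMap.range (gs g n : Module.End ℂ (X → ℂ)) := by
    intro v hv
    rw [Module.End.mem_eigenspace_iff, one_smul] at hv
    have hv' : pb g v = v := hv
    have hpow : ∀ i : ℕ, (pb g ^ i : Module.End ℂ (X → ℂ)) v = v := by
      intro i
      induction i with
      | zero => simp
      | succ i ih => rw [pow_succ, Module.End.mul_apply, hv', ih]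
    refine ⟨(n : ℂ)⁻¹ • v, ?_⟩
    rw [map_smul, gs, LinearMap.sum_apply, Finset.sum_congr rfl fun i _ => hpow i]
    simp only [Finset.sum_const, Finset.card_range, ← Nat.cast_smul_eq_nsmul ℂ, smul_smul,
      inv_mul_cancel₀ hn', one_smul]
  have h3 := Submodule.finrank_mono h2
  have h4 := LinearMap.finrank_range_add_finrank_ker (gs g n : Module.End ℂ (X → ℂ))
  rw [Module.finrank_fintype_fun_eq_card] at h4
  omega

omit [Fintype X] in
lemma single_sub_mem_ker_gs [DecidableEq X] {g : G} {n : ℕ} (h : ∀ x : X, g ^ n • x = x) (x : X) :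
    (Pi.single (g • x) (1 : ℂ) - Pi.single x 1 : X → ℂ) ∈
      LinearMap.ker (gs g n : Module.End ℂ (X → ℂ)) := by
  have h1 : pb g (Pi.single (g • x) (1 : ℂ) : X → ℂ) = Pi.single x 1 := by
    funext y
    simp [Pi.single_apply]
  rw [LinearMap.mem_ker, map_sub, ← h1, gs_apply_pb h, sub_self]

lemma card_le_finrank_sup_add_one [MulAction.IsPretransitive G X] (x0 : X) {S R : G}
    (hgen : Subgroup.closure {S, R} = ⊤) {m n : ℕ}
    (hS : ∀ x : X, S ^ m • x = x) (hR : ∀ x : X, R ^ n • x = x) :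
    Fintype.card X ≤ finrank ℂ (LinearMap.ker (gs S m : Module.End ℂ (X → ℂ)) ⊔
      LinearMap.ker (gs R n : Module.End ℂ (X → ℂ)) : Submodule ℂ (X → ℂ)) + 1 := by
  classical
  set M : Submodule ℂ (X → ℂ) := LinearMap.ker (gs S m : Module.End ℂ (X → ℂ)) ⊔
      LinearMap.ker (gs R n : Module.End ℂ (X → ℂ)) with hM
  let H : Subgroup G :=
    { carrier := {g | ∀ x : X, (Pi.single (g • x) (1 : ℂ) - Pi.single x 1 : X → ℂ) ∈ M}
      mul_mem' := by
        intro a b ha hb x
        have := M.add_mem (ha (b • x)) (hb x)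
        rw [sub_add_sub_cancel, ← mul_smul] at this
        exact this
      one_mem' := by
        intro x
        simp
      inv_mem' := by
        intro a ha x
        have := M.neg_mem (ha (a⁻¹ • x))
        rw [neg_sub, smul_inv_smul] at this
        exact this }
  have hH : H = ⊤ := by
    rw [eq_top_iff, ← hgen, Subgroup.closure_le]
    rintro g (rfl | rfl)
    · exact fun x => Submodule.mem_sup_left (single_sub_mem_ker_gs hS x)
    · exact fun x => Submodule.mem_sup_right (single_sub_mem_ker_gs hR x)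
  have htop : (⊤ : Submodule ℂ (X → ℂ)) ≤ M ⊔ Submodule.span ℂ {(Pi.single x0 (1 : ℂ) : X → ℂ)} := by
    intro v _
    rw [pi_eq_sum_univ v]
    refine Submodule.sum_mem _ fun x _ => Submodule.smul_mem _ _ ?_
    obtain ⟨g, rfl⟩ := MulAction.exists_smul_eq G x0 x
    have hg : g ∈ H := hH ▸ Subgroup.mem_top g
    have h1 := Submodule.add_mem _ (Submodule.mem_sup_left
      (T := Submodule.span ℂ {(Pi.single x0 (1 : ℂ) : X → ℂ)}) (hg x0))
      (Submodule.mem_sup_right (S := M) (Submodule.mem_span_singleton_self _))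
    rw [sub_add_cancel] at h1
    convert h1 using 1
    funext y
    simp [Pi.single_apply, eq_comm]
  have h1 := Submodule.finrank_mono htop
  rw [finrank_top, Module.finrank_fintype_fun_eq_card] at h1
  have h2 := Submodule.finrank_add_le_finrank_add_finrank M
    (Submodule.span ℂ {(Pi.single x0 (1 : ℂ) : X → ℂ)})
  have h3 : finrank ℂ (Submodule.span ℂ {(Pi.single x0 (1 : ℂ) : X → ℂ)}) ≤ 1 := by
    refine (finrank_span_le_card _).trans ?_
    simp
  omega

end Fin

section LemmaP

variable {V : Type} [AddCommGroup V] [Module ℂ V] [FiniteDimensional ℂ V]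

/-- the space of pairs `(a, r)` with `a ∈ A`, `r ∈ B`, `r - a ∈ K` -/
def pairSpace (A B K : Submodule ℂ V) : Submodule ℂ (V × V) :=
  (A.prod B) ⊓ K.comap (LinearMap.snd ℂ V V - LinearMap.fst ℂ V V)

omit [FiniteDimensional ℂ V] in
lemma mem_pairSpace {A B K : Submodule ℂ V} {p : V × V} :
    p ∈ pairSpace A B K ↔ p.1 ∈ A ∧ p.2 ∈ B ∧ p.2 - p.1 ∈ K := by
  simp [pairSpace, and_assoc]

lemma finrank_pairSpace_le (A B K : Submodule ℂ V) :
    finrank ℂ (pairSpace A B K) + finrank ℂ (A ⊔ B : Submodule ℂ V) ≤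
      finrank ℂ A + finrank ℂ B + finrank ℂ K := by
  set W := pairSpace A B K with hW
  let f : W →ₗ[ℂ] V := (LinearMap.snd ℂ V V - LinearMap.fst ℂ V V) ∘ₗ W.subtype
  have h1 := LinearMap.finrank_range_add_finrank_ker f
  have h2 : LinearMap.range f ≤ K := by
    rintro _ ⟨w, rfl⟩
    exact (mem_pairSpace.1 w.2).2.2
  have h3 := Submodule.finrank_mono h2
  let g : LinearMap.ker f →ₗ[ℂ] (A ⊓ B : Submodule ℂ V) :=
    LinearMap.codRestrict _ (LinearMap.fst ℂ V V ∘ₗ W.subtype ∘ₗ (LinearMap.ker f).subtype) (by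
      intro w
      have hw : w.1.1.2 - w.1.1.1 = 0 := w.2
      have hw' := mem_pairSpace.1 w.1.2
      refine ⟨hw'.1, ?_⟩
      have : w.1.1.1 = w.1.1.2 := (sub_eq_zero.1 hw).symm
      show w.1.1.1 ∈ B
      rw [this]
      exact hw'.2.1)
  have hg : Function.Injective g := by
    intro w w' hww
    have h : w.1.1.1 = w'.1.1.1 := congrArg Subtype.val hww
    have hw : w.1.1.2 - w.1.1.1 = 0 := w.2
    have hw' : w'.1.1.2 - w'.1.1.1 = 0 := w'.2
    apply Subtype.ext
    apply Subtype.ext
    refine Prod.ext h ?_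
    rw [sub_eq_zero.1 hw, sub_eq_zero.1 hw', h]
  have h4 := LinearMap.finrank_le_finrank_of_injective hg
  have h5 := Submodule.finrank_sup_add_finrank_inf_eq A B
  omega

end LemmaP

end FAES
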