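import Mathlib
import Fermat.Agent.ES.CohLin

/-!
# Homomorphisms of a finite index subgroup as cocycles with values in the permutation module
-/

open Module

namespace FAES

section Coc

variable {G : Type} [Group G] {X : Type} [MulAction G X]

/-- `1`-cocycles of `G` with values in the functions on `X` -/
def IsCoc (y : G → X → ℂ) : Prop := ∀ g h, y (g * h) = pb h (y g) + y h

lemma IsCoc.one {y : G → X → ℂ} (hy : IsCoc y) : y 1 = 0 := by
  have := hy 1 1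
  rw [mul_one, pb_one, Module.End.one_apply] at this
  simpa using this

lemma IsCoc.pow {y : G → X → ℂ} (hy : IsCoc y) (g : G) (n : ℕ) : y (g ^ n) = gs g n (y g) := by
  induction n with
  | zero => simp [gs, hy.one]
  | succ n ih =>
    rw [pow_succ', hy, ih, pb_pow, gs, gs, Finset.sum_range_succ, LinearMap.add_apply, add_comm]

lemma IsCoc.add {y y' : G → X → ℂ} (hy : IsCoc y) (hy' : IsCoc y') :
    IsCoc (fun g => y g + y' g) := by
  intro g h
  simp only [hy g h, hy' g h, map_add]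
  abel

lemma isCoc_cob (v : X → ℂ) : IsCoc (fun g : G => pb g v - v) := by
  intro g h
  simp only [pb_mul, Module.End.mul_apply, map_sub]
  abel

lemma IsCoc.eq_zero {y : G → X → ℂ} (hy : IsCoc y) {S R : G}
    (hgen : Subgroup.closure {S, R} = ⊤) (hS : y S = 0) (hR : y R = 0) (g : G) : y g = 0 := by
  let H : Subgroup G :=
    { carrier := {g | y g = 0}
      mul_mem' := by
        intro a b ha hb
        show y (a * b) = 0
        rw [hy, show y a = 0 from ha, show y b = 0 from hb, map_zero, add_zero]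
      one_mem' := hy.one
      inv_mem' := by
        intro a ha
        have := hy a a⁻¹
        rw [mul_inv_cancel, hy.one, show y a = 0 from ha, map_zero, zero_add] at this
        exact this.symm }
  have hH : H = ⊤ := by
    rw [eq_top_iff, ← hgen, Subgroup.closure_le]
    rintro g (rfl | rfl)
    · exact hS
    · exact hR
  exact (hH ▸ Subgroup.mem_top g : g ∈ H)

end Coc

section Quot

variable {G : Type} [Group G] (Γ : Subgroup G)

lemma out_mem (g : G) (x : G ⧸ Γ) : (g • x).out⁻¹ * g * x.out ∈ Γ := by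
  rw [mul_assoc, ← QuotientGroup.eq, QuotientGroup.out_eq']
  conv_lhs => rw [← QuotientGroup.out_eq' x]
  rfl

/-- the cocycle attached to a homomorphism of `Γ` -/
noncomputable def zc (g : G) : (Additive Γ →+ ℂ) →ₗ[ℂ] (G ⧸ Γ → ℂ) where
  toFun φ x := φ (Additive.ofMul ⟨(g • x).out⁻¹ * g * x.out, out_mem Γ g x⟩)
  map_add' := fun _ _ => rfl
  map_smul' := fun _ _ => rfl

lemma zc_apply (g : G) (φ : Additive Γ →+ ℂ) (x : G ⧸ Γ) :
    zc Γ g φ x = φ (Additive.ofMul ⟨(g • x).out⁻¹ * g * x.out, out_mem Γ g x⟩) := rfl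

lemma isCoc_zc (φ : Additive Γ →+ ℂ) : IsCoc (fun g => zc Γ g φ) := by
  intro g h
  funext x
  simp only [Pi.add_apply, pb_apply, zc_apply]
  rw [← map_add, ← ofMul_mul]
  congr 2
  apply Subtype.ext
  simp [mul_smul, mul_assoc]

lemma zc_apply_base (φ : Additive Γ →+ ℂ) (γ : Γ) :
    zc Γ (γ : G) φ ((1 : G) : G ⧸ Γ) = φ (Additive.ofMul γ) := by
  set x0 : G ⧸ Γ := ((1 : G) : G ⧸ Γ) with hx0
  have ht : x0.out ∈ Γ := by
    have h1 : ((x0.out : G) : G ⧸ Γ) = ((1 : G) : G ⧸ Γ) := QuotientGroup.out_eq' x0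
    rw [QuotientGroup.eq, mul_one] at h1
    exact (Subgroup.inv_mem_iff Γ).1 h1
  have hx : (γ : G) • x0 = x0 := by
    show (((γ : G) * 1 : G) : G ⧸ Γ) = ((1 : G) : G ⧸ Γ)
    rw [QuotientGroup.eq]
    simp
  have h2 : (⟨((γ : G) • x0).out⁻¹ * γ * x0.out, out_mem Γ γ x0⟩ : Γ)
      = (⟨x0.out, ht⟩ : Γ)⁻¹ * γ * ⟨x0.out, ht⟩ := by
    apply Subtype.ext
    simp [hx]
  rw [zc_apply, h2, ofMul_mul, ofMul_mul, ofMul_inv, map_add, map_add, map_neg]
  ring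

lemma zc_eq_zero_of_par {Par : G → Prop} (hconj : ∀ g h, Par g → Par (h⁻¹ * g * h))
    {φ : Additive Γ →+ ℂ} (hφ : ∀ γ : Γ, Par γ → φ (Additive.ofMul γ) = 0) {g : G} (hg : Par g)
    (hfix : ∀ x : G ⧸ Γ, g • x = x) : zc Γ g φ = 0 := by
  funext x
  apply hφ
  show Par ((g • x).out⁻¹ * g * x.out)
  rw [hfix x]
  exact hconj _ _ hg

/-- the cocycle attached to a pair (homomorphism, function) -/
noncomputable def yc (φ : Additive Γ →+ ℂ) (v : G ⧸ Γ → ℂ) (g : G) : G ⧸ Γ → ℂ :=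
  zc Γ g φ + (pb g v - v)

lemma isCoc_yc (φ : Additive Γ →+ ℂ) (v : G ⧸ Γ → ℂ) : IsCoc (yc Γ φ v) :=
  (isCoc_zc Γ φ).add (isCoc_cob v)

lemma yc_eq_zero_of_par {Par : G → Prop} (hconj : ∀ g h, Par g → Par (h⁻¹ * g * h))
    {φ : Additive Γ →+ ℂ} (hφ : ∀ γ : Γ, Par γ → φ (Additive.ofMul γ) = 0) (v : G ⧸ Γ → ℂ)
    {g : G} (hg : Par g) (hfix : ∀ x : G ⧸ Γ, g • x = x) : yc Γ φ v g = 0 := by
  rw [yc, zc_eq_zero_of_par Γ hconj hφ hg hfix, pb_eq_one_of_trivial hfix]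
  simp

/-- the evaluation map `(φ, v) ↦ (y_S, y_R)` -/
noncomputable def evSR (PH : Submodule ℂ (Additive Γ →+ ℂ)) (S R : G) :
    (PH × (G ⧸ Γ → ℂ)) →ₗ[ℂ] ((G ⧸ Γ → ℂ) × (G ⧸ Γ → ℂ)) :=
  LinearMap.prod
    ((zc Γ S ∘ₗ PH.subtype) ∘ₗ LinearMap.fst ℂ _ _ + (pb S - 1) ∘ₗ LinearMap.snd ℂ _ _)
    ((zc Γ R ∘ₗ PH.subtype) ∘ₗ LinearMap.fst ℂ _ _ + (pb R - 1) ∘ₗ LinearMap.snd ℂ _ _)

lemma evSR_apply (PH : Submodule ℂ (Additive Γ →+ ℂ)) (S R : G) (p : PH × (G ⧸ Γ → ℂ)) :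
    evSR Γ PH S R p = (yc Γ p.1 p.2 S, yc Γ p.1 p.2 R) := rfl

lemma eq_zero_of_yc_eq_zero {φ : Additive Γ →+ ℂ} {v : G ⧸ Γ → ℂ} (h : ∀ g, yc Γ φ v g = 0) :
    φ = 0 ∧ ∀ x, v x = v ((1 : G) : G ⧸ Γ) := by
  have hφ : φ = 0 := by
    refine AddMonoidHom.ext fun γ => ?_
    obtain ⟨γ, rfl⟩ := Additive.ofMul.surjective γ
    have h1 := congrFun (h (γ : G)) ((1 : G) : G ⧸ Γ)
    have hx : (γ : G) • (((1 : G) : G ⧸ Γ)) = ((1 : G) : G ⧸ Γ) := by
      show (((γ : G) * 1 : G) : G ⧸ Γ) = ((1 : G) : G ⧸ Γ)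
      rw [QuotientGroup.eq]
      simp
    simp only [yc, Pi.add_apply, Pi.sub_apply, pb_apply, zc_apply_base, hx, sub_self, add_zero,
      Pi.zero_apply] at h1
    simpa using h1
  refine ⟨hφ, fun x => ?_⟩
  obtain ⟨g, rfl⟩ := QuotientGroup.mk_surjective x
  have h1 := congrFun (h g) ((1 : G) : G ⧸ Γ)
  subst hφ
  simp only [yc, map_zero, zero_add, Pi.sub_apply, pb_apply, Pi.zero_apply, sub_eq_zero] at h1
  rw [← h1]
  show v ((g : G) : G ⧸ Γ) = v (((g * 1 : G)) : G ⧸ Γ)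
  rw [mul_one]

theorem finrank_add_card_le [Fintype (G ⧸ Γ)] {S T : G} (hgen : Subgroup.closure {S, T} = ⊤)
    {Par : G → Prop} (hconj : ∀ g h, Par g → Par (h⁻¹ * g * h))
    (PH : Submodule ℂ (Additive Γ →+ ℂ))
    (hPH : ∀ φ ∈ PH, ∀ γ : Γ, Par γ → φ (Additive.ofMul γ) = 0)
    (hS : ∀ x : G ⧸ Γ, S ^ 2 • x = x) (hR : ∀ x : G ⧸ Γ, (S * T) ^ 3 • x = x) {n : ℕ}
    (hT : ∀ x : G ⧸ Γ, T ^ n • x = x) (pS : Par (S ^ 2)) (pR : Par ((S * T) ^ 3))
    (pT : Par (T ^ n)) :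
    Module.Finite ℂ PH ∧ finrank ℂ PH + Fintype.card (G ⧸ Γ) ≤
      finrank ℂ (pairSpace (LinearMap.ker (gs S 2 : Module.End ℂ (G ⧸ Γ → ℂ)))
        (LinearMap.ker (gs (S * T) 3 : Module.End ℂ (G ⧸ Γ → ℂ)))
        (LinearMap.ker (gs T n : Module.End ℂ (G ⧸ Γ → ℂ)))) + 1 := by
  have hgen' : Subgroup.closure {S, S * T} = ⊤ := by
    rw [eq_top_iff, ← hgen, Subgroup.closure_le]
    have h1 : S ∈ Subgroup.closure {S, S * T} := Subgroup.subset_closure (by simp)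
    have h2 : S * T ∈ Subgroup.closure {S, S * T} := Subgroup.subset_closure (by simp)
    rintro g (hg | hg)
    · rw [hg]; exact h1
    · rw [Set.mem_singleton_iff.1 hg]
      have := Subgroup.mul_mem _ (Subgroup.inv_mem _ h1) h2
      rwa [inv_mul_cancel_left] at this
  set A := LinearMap.ker (gs S 2 : Module.End ℂ (G ⧸ Γ → ℂ)) with hA
  set B := LinearMap.ker (gs (S * T) 3 : Module.End ℂ (G ⧸ Γ → ℂ)) with hB
  set K := LinearMap.ker (gs T n : Module.End ℂ (G ⧸ Γ → ℂ)) with hK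
  set E := evSR Γ PH S (S * T) with hE
  -- the kernel
  have hker : LinearMap.ker E ≤ Submodule.span ℂ {((0 : PH), (fun _ => 1 : G ⧸ Γ → ℂ))} := by
    intro p hp
    rw [LinearMap.mem_ker, hE, evSR_apply, Prod.mk_eq_zero] at hp
    have h0 := (isCoc_yc Γ p.1 p.2).eq_zero hgen' hp.1 hp.2
    obtain ⟨h1, h2⟩ := eq_zero_of_yc_eq_zero Γ h0
    rw [Submodule.mem_span_singleton]
    refine ⟨p.2 ((1 : G) : G ⧸ Γ), ?_⟩
    refine Prod.ext ?_ ?_
    · apply Subtype.ext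
      simp [h1]
    · funext x
      simp [h2 x]
  -- the range
  have hrange : LinearMap.range E ≤ pairSpace A B K := by
    rintro _ ⟨p, rfl⟩
    have hφ := hPH p.1 p.1.2
    have hy := isCoc_yc Γ (p.1 : Additive Γ →+ ℂ) p.2
    rw [hE, evSR_apply, mem_pairSpace]
    refine ⟨?_, ?_, ?_⟩
    · rw [hA, LinearMap.mem_ker, ← hy.pow]
      exact yc_eq_zero_of_par Γ hconj hφ _ pS hS
    · rw [hB, LinearMap.mem_ker, ← hy.pow]
      exact yc_eq_zero_of_par Γ hconj hφ _ pR hR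
    · show yc Γ p.1 p.2 (S * T) - yc Γ p.1 p.2 S ∈ K
      rw [hK, LinearMap.mem_ker, hy S T, map_sub, map_add, gs_apply_pb hT, ← hy.pow,
        yc_eq_zero_of_par Γ hconj hφ _ pT hT]
      simp
  -- finiteness
  have hfin : Module.Finite ℂ PH := by
    let E1 : PH →ₗ[ℂ] ((G ⧸ Γ → ℂ) × (G ⧸ Γ → ℂ)) := E ∘ₗ LinearMap.inl ℂ _ _
    refine Module.Finite.of_injective E1 ?_
    rw [← LinearMap.ker_eq_bot, LinearMap.ker_eq_bot']
    intro φ hφ
    have h1 : ((φ, 0) : PH × (G ⧸ Γ → ℂ)) ∈ LinearMap.ker E := hφ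
    obtain ⟨c, hc⟩ := Submodule.mem_span_singleton.1 (hker h1)
    have := congrArg Prod.fst hc
    simpa using this.symm
  refine ⟨hfin, ?_⟩
  have h1 := LinearMap.finrank_range_add_finrank_ker E
  rw [Module.finrank_prod, Module.finrank_fintype_fun_eq_card] at h1
  have h2 := Submodule.finrank_mono hrange
  have h3 : finrank ℂ (LinearMap.ker E) ≤ 1 := by
    refine (Submodule.finrank_mono hker).trans ((finrank_span_le_card _).trans ?_)
    simp
  omega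

end Quot

end FAES
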