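import Mathlib
import Fermat.Prelude.Def_ModularCurve_PeriodMap
import Fermat.Prelude.Def_ModularCurve_GenusNumerics
import Fermat.Agent.Genus.CardCoset
import Fermat.Agent.Genus.OrbT
import Fermat.Agent.Genus.FixS
import Fermat.Agent.Genus.FixST
import Fermat.Agent.ES.CohGrp

/-!
# `dim Hom_par(Γ₀(N), ℂ) ≤ 2 g(X₀(N))`
-/

open scoped MatrixGroups
open Module CongruenceSubgroup ModularGroup

namespace FAES

/-- trace squared equals four -/
def Par (g : SL(2, ℤ)) : Prop := (g : Matrix (Fin 2) (Fin 2) ℤ).trace ^ 2 = 4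

lemma par_conj (g h : SL(2, ℤ)) (hg : Par g) : Par (h⁻¹ * g * h) := by
  unfold Par at *
  have : ((h⁻¹ * g * h : SL(2, ℤ)) : Matrix (Fin 2) (Fin 2) ℤ).trace
      = (g : Matrix (Fin 2) (Fin 2) ℤ).trace := by
    rw [Matrix.SpecialLinearGroup.coe_mul, Matrix.trace_mul_comm, ← Matrix.SpecialLinearGroup.coe_mul,
      mul_inv_cancel_left]
  rw [this, hg]

lemma S_sq_eq : (S : SL(2, ℤ)) ^ 2 = -1 := by
  apply Subtype.ext
  rw [Matrix.SpecialLinearGroup.coe_pow, Matrix.SpecialLinearGroup.coe_neg,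
    Matrix.SpecialLinearGroup.coe_one, coe_S, pow_two, Matrix.mul_fin_two]
  ext i j
  fin_cases i <;> fin_cases j <;> simp

lemma ST_cube_eq : (S * T : SL(2, ℤ)) ^ 3 = -1 := by
  apply Subtype.ext
  rw [Matrix.SpecialLinearGroup.coe_pow, Matrix.SpecialLinearGroup.coe_neg,
    Matrix.SpecialLinearGroup.coe_one, Matrix.SpecialLinearGroup.coe_mul, coe_S, coe_T,
    Matrix.mul_fin_two, pow_succ, pow_two, Matrix.mul_fin_two, Matrix.mul_fin_two]
  ext i j
  fin_cases i <;> fin_cases j <;> simp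

lemma par_neg_one : Par (-1) := by
  simp [Par]

lemma par_T_pow (n : ℕ) : Par (T ^ n) := by
  have := ModularGroup.coe_T_zpow (n : ℤ)
  rw [zpow_natCast] at this
  simp [Par, this, Matrix.trace_fin_two]

lemma neg_one_smul_coset (N : ℕ) (x : SL(2, ℤ) ⧸ Gamma0 N) : (-1 : SL(2, ℤ)) • x = x := by
  obtain ⟨g, rfl⟩ := QuotientGroup.mk_surjective x
  show (((-1 : SL(2, ℤ)) * g : SL(2, ℤ)) : SL(2, ℤ) ⧸ Gamma0 N) = (g : SL(2, ℤ) ⧸ Gamma0 N)
  rw [eq_comm, QuotientGroup.eq]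
  have : g⁻¹ * (-1 * g) = -1 := by simp
  rw [this, Gamma0_mem]
  simp

theorem finite_and_finrank_parabolicHoms_le (N : ℕ) [NeZero N] :
    Module.Finite ℂ (ModularCurve.Period.parabolicHoms ℂ (Gamma0 N) ℂ) ∧
    (Module.finrank ℂ (ModularCurve.Period.parabolicHoms ℂ (Gamma0 N) ℂ) : ℚ)
      ≤ 2 * ModularCurve.genusFormula N := by
  classical
  have : Fintype (SL(2, ℤ) ⧸ Gamma0 N) := Fintype.ofFinite _
  obtain ⟨n, hn, hTn⟩ := (isOfFinOrder_of_finite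
    (MulAction.toPermHom SL(2, ℤ) (SL(2, ℤ) ⧸ Gamma0 N) T)).exists_pow_eq_one
  have hT : ∀ x : SL(2, ℤ) ⧸ Gamma0 N, (T : SL(2, ℤ)) ^ n • x = x := by
    intro x
    rw [← map_pow] at hTn
    exact congrArg (fun f : Equiv.Perm (SL(2, ℤ) ⧸ Gamma0 N) => f x) hTn
  have hS : ∀ x : SL(2, ℤ) ⧸ Gamma0 N, (S : SL(2, ℤ)) ^ 2 • x = x := by
    intro x; rw [S_sq_eq, neg_one_smul_coset]
  have hR : ∀ x : SL(2, ℤ) ⧸ Gamma0 N, (S * T : SL(2, ℤ)) ^ 3 • x = x := by
    intro x; rw [ST_cube_eq, neg_one_smul_coset]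
  have hgen : Subgroup.closure {S, T} = (⊤ : Subgroup SL(2, ℤ)) :=
    SpecialLinearGroup.SL2Z_generators
  have hgen' : Subgroup.closure {S, S * T} = (⊤ : Subgroup SL(2, ℤ)) := by
    rw [eq_top_iff, ← hgen, Subgroup.closure_le]
    have h1 : S ∈ Subgroup.closure {S, S * T} := Subgroup.subset_closure (by simp)
    have h2 : S * T ∈ Subgroup.closure {S, S * T} := Subgroup.subset_closure (by simp)
    rintro g (hg | hg)
    · rw [hg]; exact h1
    · rw [Set.mem_singleton_iff.1 hg]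
      have := Subgroup.mul_mem _ (Subgroup.inv_mem _ h1) h2
      rwa [inv_mul_cancel_left] at this
  obtain ⟨hfin, h1⟩ := finrank_add_card_le (Gamma0 N) hgen par_conj
    (ModularCurve.Period.parabolicHoms ℂ (Gamma0 N) ℂ) (fun φ hφ γ hγ => hφ γ hγ) hS hR hT
    (by rw [S_sq_eq]; exact par_neg_one) (by rw [ST_cube_eq]; exact par_neg_one) (par_T_pow n)
  refine ⟨hfin, ?_⟩
  have h2 := finrank_pairSpace_le
    (LinearMap.ker (gs S 2 : Module.End ℂ (SL(2, ℤ) ⧸ Gamma0 N → ℂ)))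
    (LinearMap.ker (gs (S * T) 3 : Module.End ℂ (SL(2, ℤ) ⧸ Gamma0 N → ℂ)))
    (LinearMap.ker (gs T n : Module.End ℂ (SL(2, ℤ) ⧸ Gamma0 N → ℂ)))
  have h3 := card_le_finrank_sup_add_one (((1 : SL(2, ℤ)) : SL(2, ℤ) ⧸ Gamma0 N)) hgen' hS hR
  have h4 := finrank_ker_gs_two hS
  have h5 := finrank_ker_gs_three hR
  have h6 : finrank ℂ (LinearMap.ker (gs T n : Module.End ℂ (SL(2, ℤ) ⧸ Gamma0 N → ℂ))) +
      ModularCurve.cuspCount N ≤ Fintype.card (SL(2, ℤ) ⧸ Gamma0 N) := by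
    refine le_trans (le_of_eq ?_)
      (finrank_ker_gs_add_card_orbits_le (X := SL(2, ℤ) ⧸ Gamma0 N) (T : SL(2, ℤ)) hn)
    congr 1
    exact (FAGenus.card_orbits_T N).symm
  rw [FAGenus.card_fixedBy_S] at h4
  rw [FAGenus.card_fixedBy_ST] at h5
  have h7 : Fintype.card (SL(2, ℤ) ⧸ Gamma0 N) = ModularCurve.dedekindPsi N := by
    rw [← Nat.card_eq_fintype_card, FAGenus.card_coset]
  rw [h7] at h1 h3 h4 h5 h6
  unfold ModularCurve.genusFormula
  have h1' := (Nat.cast_le (α := ℚ)).2 h1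
  have h2' := (Nat.cast_le (α := ℚ)).2 h2
  have h3' := (Nat.cast_le (α := ℚ)).2 h3
  have h4' := congrArg (Nat.cast (R := ℚ)) h4
  have h5' := congrArg (Nat.cast (R := ℚ)) h5
  have h6' := (Nat.cast_le (α := ℚ)).2 h6
  push_cast at h1' h2' h3' h4' h5' h6'
  linarith

theorem finrank_parabolicHoms_le (N : ℕ) [NeZero N] :
    (Module.finrank ℂ (ModularCurve.Period.parabolicHoms ℂ (Gamma0 N) ℂ) : ℚ)
      ≤ 2 * ModularCurve.genusFormula N :=
  (finite_and_finrank_parabolicHoms_le N).2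

instance finite_parabolicHoms (N : ℕ) [NeZero N] :
    Module.Finite ℂ (ModularCurve.Period.parabolicHoms ℂ (Gamma0 N) ℂ) :=
  (finite_and_finrank_parabolicHoms_le N).1

end FAES
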