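import Fermat.Agent.H3.Eichler

set_option autoImplicit false

open UpperHalfPlane hiding I
open Complex Filter Function Topology Matrix.SpecialLinearGroup
open scoped Manifold MatrixGroups ModularForm Pointwise
open FAH3

noncomputable section

namespace FAES

lemma HD_cexp {F f : ℍ → ℂ} (h : HD F f) :
    HD (fun τ => Complex.exp (F τ)) (fun τ => Complex.exp (F τ) * f τ) := by
  intro τ
  have := (h τ).cexp
  simpa [Function.comp_def, ofComplex_apply] using this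

lemma HD_const (c : ℂ) : HD (fun _ => c) 0 := fun _ => hasDerivAt_const _ _

/-- **Maximum principle on the compactified modular curve.**  A holomorphic function on `ℍ` whose
real part is invariant under a finite index subgroup, and which is periodic with a limit at every
cusp, has zero derivative. -/
theorem HD_eq_zero_of_re_invariant {Γ : Subgroup SL(2, ℤ)} [Γ.FiniteIndex] {H h : ℍ → ℂ}
    (hH : HD H h) (hinv : ∀ γ ∈ Γ, ∀ τ : ℍ, (H (γ • τ)).re = (H τ).re) {M : ℝ} (hM : 0 < M)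
    (hper : ∀ δ : SL(2, ℤ), Periodic ((fun w : ℍ => H (δ • w)) ∘ ofComplex) M)
    (hlim : ∀ δ : SL(2, ℤ), ∃ L : ℂ, Tendsto (fun w : ℍ => H (δ • w)) atImInfty (𝓝 L)) :
    h = 0 := by
  classical
  set E : SL(2, ℤ) → ℍ → ℂ := fun δ w => Complex.exp (H (δ • w)) with hE
  have hEd : ∀ δ, HD (E δ) (fun w => Complex.exp (H (δ • w)) * (h (δ • w) * (1 / denom δ w ^ 2))) :=
    fun δ => HD_cexp (hH.comp_SL δ)
  have hEper : ∀ δ, Periodic ((E δ) ∘ ofComplex) M := by
    intro δ w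
    have := hper δ w
    simp only [comp_apply] at this ⊢
    simp only [hE, this]
  have hEbd : ∀ δ, IsBoundedAtImInfty (E δ) := by
    intro δ
    obtain ⟨L, hL⟩ := hlim δ
    have : Tendsto (E δ) atImInfty (𝓝 (Complex.exp L)) :=
      (Complex.continuous_exp.tendsto L).comp hL
    exact this.isBigO_one ℝ
  set G : SL(2, ℤ) → ℂ → ℂ := fun δ => cuspFunction M (E δ) with hG
  have hGd : ∀ δ, DifferentiableOn ℂ (G δ) (Metric.ball 0 1) := fun δ =>
    differentiableOn_cuspFunction_ball hM (hEper δ) (hEd δ).mdiff (hEbd δ)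
  have hGE : ∀ δ (w : ℍ), G δ (Periodic.qParam M w) = E δ w := fun δ w =>
    eq_cuspFunction w hM.ne' (hEper δ)
  set r : ℝ := Real.exp (-Real.pi / M) with hr
  have hr1 : r < 1 := by
    rw [hr, Real.exp_lt_one_iff]
    exact div_neg_of_neg_of_pos (neg_lt_zero.mpr Real.pi_pos) hM
  have hr0 : 0 ≤ r := (Real.exp_pos _).le
  have hsub : Metric.closedBall (0 : ℂ) r ⊆ Metric.ball 0 1 := Metric.closedBall_subset_ball hr1
  have hmax : ∀ δ, ∃ q ∈ Metric.closedBall (0 : ℂ) r,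
      IsMaxOn (fun q => ‖G δ q‖) (Metric.closedBall (0 : ℂ) r) q := fun δ =>
    (isCompact_closedBall (0 : ℂ) r).exists_isMaxOn ⟨0, by simpa using hr0⟩
      ((hGd δ).continuousOn.mono hsub).norm
  choose q hq hqmax using hmax
  obtain ⟨c₀, hc₀⟩ := Finite.exists_max (fun c : SL(2, ℤ) ⧸ Γ => ‖G (c.out)⁻¹ (q (c.out)⁻¹)‖)
  set δ₀ : SL(2, ℤ) := (c₀.out)⁻¹ with hδ₀
  -- global bound
  have hglob : ∀ τ : ℍ, ‖Complex.exp (H τ)‖ ≤ ‖G δ₀ (q δ₀)‖ := by
    intro τ
    obtain ⟨g, hg⟩ := ModularGroup.exists_one_half_le_im_smul τ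
    obtain ⟨γ, hγ⟩ := QuotientGroup.mk_out_eq_mul Γ g
    set c : SL(2, ℤ) ⧸ Γ := QuotientGroup.mk g with hc
    have hτ : τ = (γ : SL(2, ℤ)) • ((c.out)⁻¹ • (g • τ)) := by
      rw [hγ, ← mul_smul, ← mul_smul]
      simp
    have h1 : ‖Complex.exp (H τ)‖ = ‖E (c.out)⁻¹ (g • τ)‖ := by
      simp only [hE, Complex.norm_exp]
      rw [← hinv γ γ.2 ((c.out)⁻¹ • (g • τ)), ← hτ]
    have h2 : Periodic.qParam M (g • τ : ℍ) ∈ Metric.closedBall (0 : ℂ) r := by
      rw [mem_closedBall_zero_iff, Periodic.norm_qParam, hr, Real.exp_le_exp,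
        div_le_div_iff_of_pos_right hM]
      have : (1 : ℝ) / 2 ≤ ((g • τ : ℍ) : ℂ).im := hg
      nlinarith [Real.pi_pos]
    rw [h1, ← hGE]
    exact (hqmax _ h2).trans (hc₀ c)
  have hball : ∀ z ∈ Metric.ball (0 : ℂ) 1, z ≠ 0 → ‖G δ₀ z‖ ≤ ‖G δ₀ (q δ₀)‖ := by
    intro z hz hz0
    have hz1 : ‖z‖ < 1 := by simpa using hz
    have him := Periodic.im_invQParam_pos_of_norm_lt_one hM hz1 hz0
    have := hGE δ₀ ⟨_, him⟩
    rw [UpperHalfPlane.coe_mk, Periodic.qParam_right_inv hM.ne' hz0] at this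
    rw [this]
    exact hglob _
  have hzero : ‖G δ₀ 0‖ ≤ ‖G δ₀ (q δ₀)‖ := by
    have hc : ContinuousAt (G δ₀) 0 :=
      ((hGd δ₀).differentiableAt (Metric.ball_mem_nhds 0 one_pos)).continuousAt
    have ht : Tendsto (fun z => ‖G δ₀ z‖) (𝓝[≠] 0) (𝓝 ‖G δ₀ 0‖) :=
      (hc.norm.tendsto).mono_left nhdsWithin_le_nhds
    refine le_of_tendsto ht ?_
    filter_upwards [self_mem_nhdsWithin, nhdsWithin_le_nhds (Metric.ball_mem_nhds (0 : ℂ) one_pos)]
      with z hz hz'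
    exact hball z hz' hz
  have hmaxOn : IsMaxOn (norm ∘ G δ₀) (Metric.ball 0 1) (q δ₀) := by
    intro z hz
    by_cases hz0 : z = 0
    · subst hz0; exact hzero
    · exact hball z hz hz0
  have hconst := Complex.eqOn_of_isPreconnected_of_isMaxOn_norm
    (convex_ball (0 : ℂ) 1).isPreconnected Metric.isOpen_ball (hGd δ₀) (hsub (hq δ₀)) hmaxOn
  have hEc : E δ₀ = fun _ => G δ₀ (q δ₀) := by
    funext w
    rw [← hGE]
    exact hconst (by simpa using Periodic.norm_qParam_lt_one hM w.im_pos)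
  have hu := (hEd δ₀).unique (hEc ▸ HD_const _)
  funext τ
  have h1 := congrFun hu (δ₀⁻¹ • τ)
  simp only [Pi.zero_apply, smul_inv_smul] at h1
  have hd : denom δ₀ ((δ₀⁻¹ • τ : ℍ) : ℂ) ≠ 0 := denom_ne_zero _ _
  rcases mul_eq_zero.mp h1 with h2 | h2
  · exact absurd h2 (Complex.exp_ne_zero _)
  · rcases mul_eq_zero.mp h2 with h3 | h3
    · simpa using h3
    · exact absurd h3 (one_div_ne_zero (pow_ne_zero 2 hd))

end FAES
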