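import Fermat.Agent.ES.Parabolic
import Fermat.Agent.ES.MaxMod

set_option autoImplicit false

open UpperHalfPlane hiding I
open Complex Filter Function Topology CongruenceSubgroup Matrix.SpecialLinearGroup
open scoped Manifold MatrixGroups ModularForm Pointwise ComplexConjugate
open FAH3 ModularCurve ModularCurve.Period

noncomputable section

namespace FAES

/-- The reflection `τ ↦ -conj τ`. -/
def refl (τ : ℍ) : ℍ := ⟨-conj (τ : ℂ), by simpa using τ.im_pos⟩

@[simp] lemma coe_refl (τ : ℍ) : ((refl τ : ℍ) : ℂ) = -conj (τ : ℂ) := rfl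

@[simp] lemma refl_refl (τ : ℍ) : refl (refl τ) = τ := by
  ext; simp

@[simp] lemma im_refl (τ : ℍ) : (refl τ).im = τ.im := by
  show (-conj (τ : ℂ)).im = _
  simp

lemma tendsto_refl : Tendsto refl atImInfty atImInfty := by
  rw [atImInfty, tendsto_comap_iff]
  have : (UpperHalfPlane.im ∘ refl) = UpperHalfPlane.im := by
    funext w
    simp
  rw [this]
  exact tendsto_comap

lemma refl_smul (δ : SL(2, ℤ)) (τ : ℍ) : refl (δ • τ) = jConjSL δ • refl τ := by
  ext
  rw [coe_refl, coe_specialLinearGroup_apply, coe_specialLinearGroup_apply]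
  simp only [jConjSL_coe, jConjMat_apply_zero_zero, jConjMat_apply_zero_one,
    jConjMat_apply_one_zero, jConjMat_apply_one_one, coe_refl]
  simp only [algebraMap_int_eq, Int.coe_castRingHom, map_div₀, map_add, map_mul, conj_ofReal,
    Int.cast_neg, ofReal_neg]
  rw [← neg_div]
  congr 1 <;> ring

/-- The holomorphic "conjugate" of a function on `ℍ`. -/
def cstar (B : ℍ → ℂ) : ℍ → ℂ := fun τ => conj (B (refl τ))

lemma HD_cstar {B b : ℍ → ℂ} (h : HD B b) : HD (cstar B) (fun τ => -conj (b (refl τ))) := by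
  intro τ
  have h1 : HasDerivAt (B ∘ ofComplex) (b (refl τ)) (-(conj (τ : ℂ))) := h (refl τ)
  have h2 : HasDerivAt (fun z : ℂ => (B ∘ ofComplex) (-z)) (-(b (refl τ))) (conj (τ : ℂ)) := by
    have := HasDerivAt.comp (conj (τ : ℂ)) h1 (hasDerivAt_neg (conj (τ : ℂ)))
    simpa [Function.comp_def] using this
  have h3 := h2.conj_conj
  rw [Complex.conj_conj, map_neg] at h3
  refine h3.congr_of_eventuallyEq ?_
  filter_upwards [isOpen_upperHalfPlaneSet.mem_nhds τ.im_pos] with z hz
  have hz' : 0 < (-(conj z)).im := by simpa using hz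
  simp only [comp_apply, cstar, ofComplex_apply_of_im_pos hz, ofComplex_apply_of_im_pos hz']
  rfl

lemma periodic_iff {K : ℍ → ℂ} {M : ℝ} :
    Periodic (K ∘ ofComplex) M ↔ ∀ w : ℍ, K (M +ᵥ w) = K w := by
  constructor
  · intro h w
    have := h w
    simp only [comp_apply, ofComplex_apply] at this
    rw [← this]
    congr 1
    have hw' : 0 < ((w : ℂ) + M).im := by simpa using w.im_pos
    rw [ofComplex_apply_of_im_pos hw']
    ext
    simp [add_comm]
  · intro h w
    by_cases hw : 0 < im w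
    · have hw' : 0 < im (w + M) := by simpa using hw
      simp only [comp_apply, ofComplex_apply_of_im_pos hw', ofComplex_apply_of_im_pos hw]
      rw [← h ⟨w, hw⟩]
      congr 1
      ext
      simp [add_comm]
    · have hw1 : im w ≤ 0 := not_lt.mp hw
      have hw' : im (w + M) ≤ 0 := by simpa using hw1
      simp only [comp_apply, ofComplex_apply_of_im_nonpos hw', ofComplex_apply_of_im_nonpos hw1]

lemma refl_vadd (M : ℝ) (w : ℍ) : refl (M +ᵥ w) = (-M) +ᵥ refl w := by
  ext
  simp [add_comm]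

lemma periodic_cstar {K : ℍ → ℂ} {M : ℝ} (h : ∀ w : ℍ, K (M +ᵥ w) = K w) (w : ℍ) :
    cstar K (M +ᵥ w) = cstar K w := by
  unfold cstar
  rw [refl_vadd, ← h ((-M) +ᵥ refl w), vadd_vadd]
  simp

variable {N : ℕ} [NeZero N]

lemma prim_periodic (f : CuspForm (Gamma0 N) 2) {M : ℕ} (hMpos : 0 < M) (δ : SL(2, ℤ))
    (hM : (M : ℝ) ∈ (ConjAct.toConjAct (mapGL ℝ δ)⁻¹ •
      (Gamma0 N : Subgroup (GL (Fin 2) ℝ))).strictPeriods) (w : ℍ) :
    prim f (δ • ((M : ℝ) +ᵥ w)) = prim f (δ • w) := by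
  obtain ⟨G, c, hG, hGc⟩ := exists_cuspLike_of_HD f (prim_HD f) hMpos δ hM
  rw [hGc, hGc, periodic_iff.mp hG.per w]

lemma cstar_prim_smul (f : CuspForm (Gamma0 N) 2) (δ : SL(2, ℤ)) (w : ℍ) :
    cstar (prim f) (δ • w) = cstar (fun w => prim f (jConjSL δ • w)) w := by
  unfold cstar
  rw [refl_smul]

lemma cstar_prim_sub (f : CuspForm (Gamma0 N) 2) (γ : Gamma0 N) (τ : ℍ) :
    cstar (prim f) ((γ : SL(2, ℤ)) • τ) - cstar (prim f) τ =
      conj (charInvolution N ℂ ℂ (periodMap N f) (Additive.ofMul γ)) := by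
  unfold cstar
  rw [refl_smul, charInvolution_apply, toMul_ofMul, periodMap_apply f _ (refl τ), map_sub,
    jConjGamma0_coe]

/-- The core of the injectivity statement. -/
theorem eq_zero_of_periodMap_add (a b : CuspForm (Gamma0 N) 2)
    (h : periodMap N a + charInvolution N ℂ ℂ (periodMap N b) = 0) : a = 0 ∧ b = 0 := by
  obtain ⟨M, hMpos, hM⟩ := exists_period N
  have hMpos' : (0 : ℝ) < (M : ℝ) := by exact_mod_cast hMpos
  have hγ : ∀ γ : Gamma0 N, periodMap N a (Additive.ofMul γ) +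
      charInvolution N ℂ ℂ (periodMap N b) (Additive.ofMul γ) = 0 := fun γ => by
    rw [← AddMonoidHom.add_apply, h, AddMonoidHom.zero_apply]
  have hA := prim_HD a
  have hB := HD_cstar (prim_HD b)
  -- limits
  have hlimA : ∀ δ : SL(2, ℤ), ∃ L : ℂ, Tendsto (fun w : ℍ => prim a (δ • w)) atImInfty (𝓝 L) :=
    (prim_spec a).2.2.2
  have hlimB : ∀ δ : SL(2, ℤ), ∃ L : ℂ,
      Tendsto (fun w : ℍ => cstar (prim b) (δ • w)) atImInfty (𝓝 L) := by
    intro δ
    obtain ⟨L, hL⟩ := (prim_spec b).2.2.2 (jConjSL δ)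
    refine ⟨conj L, ?_⟩
    have h1 := (Complex.continuous_conj.tendsto L).comp (hL.comp tendsto_refl)
    refine h1.congr fun w => ?_
    rw [cstar_prim_smul]
    rfl
  have hperA : ∀ (δ : SL(2, ℤ)) (w : ℍ), prim a (δ • ((M : ℝ) +ᵥ w)) = prim a (δ • w) :=
    fun δ w => prim_periodic a hMpos δ (hM δ) w
  have hperB : ∀ (δ : SL(2, ℤ)) (w : ℍ),
      cstar (prim b) (δ • ((M : ℝ) +ᵥ w)) = cstar (prim b) (δ • w) := by
    intro δ w
    rw [cstar_prim_smul, cstar_prim_smul]
    exact periodic_cstar (fun w => prim_periodic b hMpos (jConjSL δ) (hM _) w) w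
  -- first function
  have h1 : (⇑a + fun τ => -conj (b (refl τ))) = 0 := by
    refine HD_eq_zero_of_re_invariant (Γ := Gamma0 N) (hA.add hB) ?_ hMpos' ?_ ?_
    · intro γ hγ' τ
      have e1 := periodMap_apply a ⟨γ, hγ'⟩ τ
      have e2 := cstar_prim_sub b ⟨γ, hγ'⟩ τ
      have e3 := hγ ⟨γ, hγ'⟩
      simp only [Pi.add_apply] at e1 e2 ⊢
      have e4 : prim a (γ • τ) + cstar (prim b) (γ • τ) = prim a τ + cstar (prim b) τ +
          (periodMap N a (Additive.ofMul ⟨γ, hγ'⟩) +
            conj (charInvolution N ℂ ℂ (periodMap N b) (Additive.ofMul ⟨γ, hγ'⟩))) := by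
        rw [e1, ← e2]; ring
      rw [e4, add_re, add_re (periodMap N a _), conj_re, ← add_re (periodMap N a _), e3]
      simp
    · intro δ
      rw [periodic_iff]
      intro w
      simp only [Pi.add_apply]
      rw [hperA, hperB]
    · intro δ
      obtain ⟨L1, hL1⟩ := hlimA δ
      obtain ⟨L2, hL2⟩ := hlimB δ
      exact ⟨L1 + L2, hL1.add hL2⟩
  have h2 : (Complex.I • (⇑a - fun τ => -conj (b (refl τ)))) = 0 := by
    refine HD_eq_zero_of_re_invariant (Γ := Gamma0 N) ((hA.sub hB).const_smul Complex.I) ?_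
      hMpos' ?_ ?_
    · intro γ hγ' τ
      have e1 := periodMap_apply a ⟨γ, hγ'⟩ τ
      have e2 := cstar_prim_sub b ⟨γ, hγ'⟩ τ
      have e3 := hγ ⟨γ, hγ'⟩
      simp only [Pi.smul_apply, Pi.sub_apply, smul_eq_mul] at e1 e2 ⊢
      have e4 : prim a (γ • τ) - cstar (prim b) (γ • τ) = prim a τ - cstar (prim b) τ +
          (periodMap N a (Additive.ofMul ⟨γ, hγ'⟩) -
            conj (charInvolution N ℂ ℂ (periodMap N b) (Additive.ofMul ⟨γ, hγ'⟩))) := by
        rw [e1, ← e2]; ring
      have e5 := congrArg Complex.im e3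
      rw [add_im, zero_im] at e5
      rw [e4, I_mul_re, I_mul_re, add_im, sub_im (periodMap N a _), conj_im]
      linarith
    · intro δ
      rw [periodic_iff]
      intro w
      simp only [Pi.smul_apply, Pi.sub_apply]
      rw [hperA, hperB]
    · intro δ
      obtain ⟨L1, hL1⟩ := hlimA δ
      obtain ⟨L2, hL2⟩ := hlimB δ
      exact ⟨Complex.I • (L1 - L2), (hL1.sub hL2).const_smul Complex.I⟩
  have h3 : ∀ τ : ℍ, a τ = 0 ∧ conj (b (refl τ)) = 0 := by
    intro τ
    have e1 := congrFun h1 τ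
    have e2 := congrFun h2 τ
    simp only [Pi.add_apply, Pi.smul_apply, Pi.sub_apply, Pi.zero_apply, smul_eq_mul] at e1 e2
    have e3 := (mul_eq_zero.mp e2).resolve_left Complex.I_ne_zero
    constructor
    · linear_combination (1 / 2 : ℂ) * e1 + (1 / 2 : ℂ) * e3
    · linear_combination (-1 / 2 : ℂ) * e1 + (1 / 2 : ℂ) * e3
  constructor
  · ext τ
    exact (h3 τ).1
  · ext τ
    have := (h3 (refl τ)).2
    rw [refl_refl] at this
    simpa using this

/-- **ES4**: injectivity of the pair map. -/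
theorem periodHomPair_injective (N : ℕ) [NeZero N] : Function.Injective (periodHomPair N) := by
  rw [injective_iff_map_eq_zero]
  rintro ⟨f, g⟩ h
  rw [periodHomPair_apply] at h
  simp only at h
  have h' : periodMap N (f + g) + charInvolution N ℂ ℂ (periodMap N (f - g)) = 0 := by
    rw [← pml_apply, ← pml_apply, map_add, map_sub, map_sub, pml_apply, pml_apply, ← h]
    abel
  obtain ⟨h1, h2⟩ := eq_zero_of_periodMap_add _ _ h'
  have hf : f = 0 := by
    have : (2 : ℂ) • f = 0 := by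
      rw [two_smul]
      calc f + f = (f + g) + (f - g) := by abel
        _ = 0 := by rw [h1, h2, add_zero]
    exact (smul_eq_zero.mp this).resolve_left two_ne_zero
  have hg : g = 0 := by
    rw [hf, zero_add] at h1
    exact h1
  rw [hf, hg]
  rfl

end FAES
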