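import Fermat.Agent.ES.Prim

set_option autoImplicit false

open UpperHalfPlane hiding I
open Complex Filter Function Topology CongruenceSubgroup Matrix.SpecialLinearGroup
open scoped Manifold MatrixGroups ModularForm Pointwise
open FAH3 ModularCurve ModularCurve.Period

noncomputable section

namespace FAES

/-- A matrix of `SL(2,ℤ)` with trace `±2` can be conjugated to an upper triangular one. -/
lemma exists_conj_upper (γ : SL(2, ℤ))
    (h : (γ : Matrix (Fin 2) (Fin 2) ℤ).trace ^ 2 = 4) :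
    ∃ δ : SL(2, ℤ), (δ⁻¹ * γ * δ : SL(2, ℤ)) 1 0 = 0 := by
  have hdet : γ 0 0 * γ 1 1 - γ 0 1 * γ 1 0 = 1 := by
    have := γ.det_coe
    rwa [Matrix.det_fin_two] at this
  rw [Matrix.trace_fin_two] at h
  by_cases hc : γ 1 0 = 0
  · exact ⟨1, by simpa using hc⟩
  obtain ⟨ε, hε, htr⟩ : ∃ ε : ℤ, ε ^ 2 = 1 ∧ γ 0 0 + γ 1 1 = 2 * ε := by
    have : (γ 0 0 + γ 1 1 - 2) * (γ 0 0 + γ 1 1 + 2) = 0 := by linear_combination h
    rcases mul_eq_zero.mp this with h' | h'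
    · exact ⟨1, by norm_num, by linear_combination h'⟩
    · exact ⟨-1, by norm_num, by linear_combination h'⟩
  -- the fixed vector
  obtain ⟨g, p, q, hg, hpq, hx, hy⟩ : ∃ g p q : ℤ, g ≠ 0 ∧ IsCoprime p q ∧ γ 0 0 - ε = g * p ∧
      γ 1 0 = g * q := by
    have hg0 : (Int.gcd (γ 0 0 - ε) (γ 1 0) : ℤ) ≠ 0 := by
      intro h0
      have := Int.gcd_eq_zero_iff.mp (by exact_mod_cast h0 : Int.gcd (γ 0 0 - ε) (γ 1 0) = 0)
      exact hc this.2
    refine ⟨Int.gcd (γ 0 0 - ε) (γ 1 0), (γ 0 0 - ε) / Int.gcd (γ 0 0 - ε) (γ 1 0),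
      γ 1 0 / Int.gcd (γ 0 0 - ε) (γ 1 0), hg0, ?_, ?_, ?_⟩
    · exact Int.isCoprime_iff_gcd_eq_one.mpr
        (Int.gcd_div_gcd_div_gcd (Int.gcd_pos_iff.mpr (Or.inr hc)))
    · exact (Int.mul_ediv_cancel' (Int.gcd_dvd_left _ _)).symm
    · exact (Int.mul_ediv_cancel' (Int.gcd_dvd_right _ _)).symm
  obtain ⟨u, v, huv⟩ := hpq
  let δ : SL(2, ℤ) := ⟨!![p, -v; q, u], by rw [Matrix.det_fin_two_of]; linear_combination huv⟩
  refine ⟨δ, ?_⟩
  have key : g ^ 2 * (γ 1 0 * p ^ 2 + (γ 1 1 - γ 0 0) * p * q - γ 0 1 * q ^ 2) = 0 := by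
    have e : g ^ 2 * (γ 1 0 * p ^ 2 + (γ 1 1 - γ 0 0) * p * q - γ 0 1 * q ^ 2) =
        γ 1 0 * (g * p) ^ 2 + (γ 1 1 - γ 0 0) * (g * p) * (g * q) - γ 0 1 * (g * q) ^ 2 := by ring
    rw [e, ← hx, ← hy]
    linear_combination (γ 1 0) * hdet - (γ 1 0) * ε * htr - γ 1 0 * hε
  have key' := (mul_eq_zero.mp key).resolve_left (pow_ne_zero 2 hg)
  have hδ : (δ : Matrix (Fin 2) (Fin 2) ℤ) = !![p, -v; q, u] := rfl
  simp only [Matrix.SpecialLinearGroup.coe_mul, Matrix.SpecialLinearGroup.coe_inv,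
    Matrix.adjugate_fin_two, Matrix.mul_apply, Fin.sum_univ_two, hδ]
  simp
  linear_combination key'

lemma tendsto_smul_of_upper {g : SL(2, ℤ)} (hg : g 1 0 = 0) :
    Tendsto (fun w : ℍ => g • w) atImInfty atImInfty := by
  obtain ⟨n, hn⟩ := ModularGroup.exists_eq_T_zpow_of_c_eq_zero hg
  rw [atImInfty, tendsto_comap_iff]
  have : (UpperHalfPlane.im ∘ fun w : ℍ => g • w) = UpperHalfPlane.im := by
    funext w
    simp only [comp_apply, hn, ModularGroup.im_T_zpow_smul]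
  rw [this]
  exact tendsto_comap

variable {N : ℕ} [NeZero N]

/-- **ES3**: periods of cusp forms vanish on parabolic elements. -/
theorem periodMap_mem_parabolicHoms (f : CuspForm (Gamma0 N) 2) :
    periodMap N f ∈ parabolicHoms ℂ (Gamma0 N) ℂ := by
  rw [mem_parabolicHoms_iff]
  intro γ hγ
  obtain ⟨δ, hδ⟩ := exists_conj_upper (γ : SL(2, ℤ)) hγ
  obtain ⟨L, hL⟩ := (prim_spec f).2.2.2 δ
  have h1 := hL.comp (tendsto_smul_of_upper hδ)
  have h2 := h1.sub hL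
  rw [sub_self] at h2
  have h3 : ((fun w : ℍ => prim f (δ • w)) ∘ fun w : ℍ => (δ⁻¹ * (γ : SL(2, ℤ)) * δ) • w) -
      (fun w : ℍ => prim f (δ • w)) = fun _ => periodMap N f (Additive.ofMul γ) := by
    funext w
    simp only [Pi.sub_apply, comp_apply]
    rw [periodMap_apply f γ (δ • w), ← mul_smul, ← mul_smul]
    congr 3
    group
  have h4 : Tendsto (fun _ : ℍ => periodMap N f (Additive.ofMul γ)) atImInfty (𝓝 0) := by
    rw [← h3]; exact h2
  exact tendsto_nhds_unique tendsto_const_nhds h4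

theorem range_periodHomPair_le (N : ℕ) [NeZero N] :
    LinearMap.range (periodHomPair N) ≤ parabolicHoms ℂ (Gamma0 N) ℂ := by
  rintro _ ⟨p, rfl⟩
  rw [periodHomPair_apply]
  exact Submodule.add_mem _
    (Submodule.add_mem _ (periodMap_mem_parabolicHoms _)
      (charInvolution_mem_parabolicHoms N ℂ ℂ (periodMap_mem_parabolicHoms _)))
    (Submodule.sub_mem _ (periodMap_mem_parabolicHoms _)
      (charInvolution_mem_parabolicHoms N ℂ ℂ (periodMap_mem_parabolicHoms _)))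

end FAES
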