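import Fermat.Agent.H3.Vanish
import Fermat.Prelude.Def_ModularCurve_PeriodHomPair

set_option autoImplicit false

open UpperHalfPlane hiding I
open Complex Filter Function Topology CongruenceSubgroup Matrix.SpecialLinearGroup
open scoped Manifold MatrixGroups ModularForm Pointwise
open FAH3 ModularCurve ModularCurve.Period

noncomputable section

namespace FAES

variable {N : ℕ} [NeZero N]

omit [NeZero N] in
/-- weight two invariance in the form we need -/
lemma cuspForm_smul (f : CuspForm (Gamma0 N) 2) (γ : SL(2, ℤ)) (hγ : γ ∈ Gamma0 N) (τ : ℍ) :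
    f (γ • τ) * (1 / denom γ τ ^ 2) = f τ := by
  have h := SlashInvariantForm.slash_action_eqn_SL'' f hγ τ
  have hd : denom γ τ ≠ 0 := denom_ne_zero γ τ
  rw [h]
  have : denom γ τ ^ (2 : ℤ) = denom γ τ ^ 2 := by norm_cast
  rw [this]
  field_simp

/-- A primitive of a cusp form is equivariant. -/
lemma equivariant_of_HD (f : CuspForm (Gamma0 N) 2) {F : ℍ → ℂ} (hF : HD F f) :
    IsEquivariantPrimitive (Gamma0 N) F := by
  intro γ
  refine ⟨F ((γ : SL(2, ℤ)) • UpperHalfPlane.I) - F UpperHalfPlane.I, fun z => ?_⟩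
  have h1 := (hF.comp_SL (γ : SL(2, ℤ))).sub hF
  have h2 : ((fun τ : ℍ => f ((γ : SL(2, ℤ)) • τ) * (1 / denom (γ : SL(2, ℤ)) τ ^ 2)) - ⇑f) = 0 := by
    funext τ
    simp only [Pi.sub_apply, Pi.zero_apply]
    rw [cuspForm_smul f γ γ.2 τ, sub_self]
  rw [h2] at h1
  exact h1.const_of_zero z UpperHalfPlane.I

/-- Behaviour of a primitive at an arbitrary cusp: up to a constant it is the cusp-like primitive of
the slashed form. -/
lemma exists_cuspLike_of_HD (f : CuspForm (Gamma0 N) 2) {F : ℍ → ℂ} (hF : HD F f) {M : ℕ}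
    (hMpos : 0 < M) (δ : SL(2, ℤ))
    (hM : (M : ℝ) ∈ (ConjAct.toConjAct (mapGL ℝ δ)⁻¹ •
      (Gamma0 N : Subgroup (GL (Fin 2) ℝ))).strictPeriods) :
    ∃ (G : ℍ → ℂ) (c : ℂ), CuspLike (M : ℝ) G ∧ ∀ w : ℍ, F (δ • w) = G w + c := by
  have hMpos' : (0 : ℝ) < (M : ℝ) := by exact_mod_cast hMpos
  obtain ⟨G, hG, hGd⟩ := exists_prim hMpos' (cuspLike_slash f δ hM)
  have h1 := (hF.comp_SL δ).sub hGd
  have h2 : ((fun τ : ℍ => f (δ • τ) * (1 / denom δ τ ^ 2)) - (⇑f ∣[(2 : ℤ)] δ)) = 0 := by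
    funext τ
    simp only [Pi.sub_apply, Pi.zero_apply]
    rw [ModularForm.SL_slash_apply]
    have : denom δ τ ^ (-(2 : ℤ)) = 1 / denom δ τ ^ 2 := by
      rw [zpow_neg, one_div]; norm_cast
    rw [this, sub_self]
  rw [h2] at h1
  refine ⟨G, F (δ • UpperHalfPlane.I) - G UpperHalfPlane.I, hG, fun w => ?_⟩
  have := h1.const_of_zero w UpperHalfPlane.I
  simp only [Pi.sub_apply] at this
  linear_combination this

/-- **ES1**: existence of the equivariant primitive. -/
theorem exists_hasEquivariantPrimitive (f : CuspForm (Gamma0 N) 2) :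
    ∃ F : ℍ → ℂ, HasEquivariantPrimitive N f F := by
  obtain ⟨F, hF, hFd⟩ := exists_prim one_pos (cuspLike_cuspForm f)
  refine ⟨F, hFd, hF.zero, equivariant_of_HD f hFd, fun δ => ?_⟩
  obtain ⟨M, hMpos, hM⟩ := exists_period N
  obtain ⟨G, c, hG, hGc⟩ := exists_cuspLike_of_HD f hFd hMpos δ (hM δ)
  refine ⟨c, ?_⟩
  have h1 : Tendsto (fun w : ℍ => G w + c) atImInfty (𝓝 (0 + c)) :=
    Tendsto.add hG.zero tendsto_const_nhds
  rw [zero_add] at h1
  exact h1.congr fun w => (hGc w).symm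

/-- The chosen primitive. -/
def prim (f : CuspForm (Gamma0 N) 2) : ℍ → ℂ := (exists_hasEquivariantPrimitive f).choose

lemma prim_spec (f : CuspForm (Gamma0 N) 2) : HasEquivariantPrimitive N f (prim f) :=
  (exists_hasEquivariantPrimitive f).choose_spec

lemma prim_HD (f : CuspForm (Gamma0 N) 2) : HD (prim f) f := (prim_spec f).1

lemma prim_zero (f : CuspForm (Gamma0 N) 2) : IsZeroAtImInfty (prim f) := (prim_spec f).2.1

lemma eq_prim (f : CuspForm (Gamma0 N) 2) {F : ℍ → ℂ} (hF : HD F f) (hF0 : IsZeroAtImInfty F) :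
    F = prim f := prim_unique hF (prim_HD f) hF0 (prim_zero f)

lemma prim_add (f g : CuspForm (Gamma0 N) 2) : prim (f + g) = prim f + prim g := by
  symm
  apply eq_prim
  · exact (prim_HD f).add (prim_HD g)
  · have := Tendsto.add (prim_zero f) (prim_zero g)
    rw [add_zero] at this
    exact this

lemma prim_smul (c : ℂ) (f : CuspForm (Gamma0 N) 2) : prim (c • f) = c • prim f := by
  symm
  apply eq_prim
  · exact (prim_HD f).const_smul c
  · have := Tendsto.const_smul (prim_zero f) c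
    rw [smul_zero] at this
    exact this

lemma periodMap_apply (f : CuspForm (Gamma0 N) 2) (γ : Gamma0 N) (τ : ℍ) :
    periodMap N f (Additive.ofMul γ) = prim f ((γ : SL(2, ℤ)) • τ) - prim f τ := by
  obtain ⟨F₀, h₀, h⟩ := periodMap_def N f (prim_spec f)
  have e : F₀ = prim f := eq_prim f h₀.1 h₀.2.1
  subst e
  rw [h, IsEquivariantPrimitive.periodHom_apply, ← h₀.2.2.1.sub_eq_period γ τ]

/-- **ES2**: the period map is linear. -/
def pml (N : ℕ) [NeZero N] : CuspForm (Gamma0 N) 2 →ₗ[ℂ] (Additive (Gamma0 N) →+ ℂ) where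
  toFun := periodMap N
  map_add' f g := by
    refine AddMonoidHom.ext fun γ => ?_
    obtain ⟨γ, rfl⟩ := Additive.ofMul.surjective γ
    rw [AddMonoidHom.add_apply, periodMap_apply _ γ UpperHalfPlane.I,
      periodMap_apply _ γ UpperHalfPlane.I, periodMap_apply _ γ UpperHalfPlane.I, prim_add]
    simp only [Pi.add_apply]
    ring
  map_smul' c f := by
    refine AddMonoidHom.ext fun γ => ?_
    obtain ⟨γ, rfl⟩ := Additive.ofMul.surjective γ
    rw [RingHom.id_apply, AddMonoidHom.smul_apply, periodMap_apply _ γ UpperHalfPlane.I,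
      periodMap_apply _ γ UpperHalfPlane.I, prim_smul]
    simp only [Pi.smul_apply, smul_eq_mul]
    ring

lemma pml_apply (f : CuspForm (Gamma0 N) 2) : pml N f = periodMap N f := rfl

theorem existsPeriodMapLinear (N : ℕ) [NeZero N] : ExistsPeriodMapLinear N := ⟨pml N, fun _ => rfl⟩

/-- The pair map in terms of `periodMap`. -/
theorem periodHomPair_apply (p : CuspForm (Gamma0 N) 2 × CuspForm (Gamma0 N) 2) :
    periodHomPair N p = (periodMap N p.1 + charInvolution N ℂ ℂ (periodMap N p.1)) +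
      (periodMap N p.2 - charInvolution N ℂ ℂ (periodMap N p.2)) := by
  obtain ⟨L, hL, h⟩ := periodHomPair_def N (existsPeriodMapLinear N)
  rw [h]
  simp [LinearMap.coprod_apply, hL]

end FAES
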